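import Fermat.Agent.Carayol.Model.VertDefs

/-!
# Contents, fractions of polynomials in the coordinate, constants
-/

set_option autoImplicit false
set_option linter.unusedSectionVars false
set_option linter.style.haveILetI false

noncomputable section

namespace FA.Carayol

open CongruenceSubgroup HahnSeries ModularCurve FA.Level Polynomial
open scoped MatrixGroups

local notation "Qb" => AlgebraicClosure ℚ

/-- A family not all zero is a power of the uniformiser times one with a unit. -/
theorem exists_content {R ι : Type*} [CommRing R] [IsDomain R] [IsDiscreteValuationRing R]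
    {ϖ : R} (hϖ : Irreducible ϖ) (f : ι → R) (hf : ∃ i, f i ≠ 0) :
    ∃ (k : ℕ) (f' : ι → R), (∀ i, f i = ϖ ^ k * f' i) ∧ ∃ i, IsUnit (f' i) := by
  classical
  obtain ⟨i₀, hi₀⟩ := hf
  obtain ⟨j, u, hu⟩ := IsDiscreteValuationRing.eq_unit_mul_pow_irreducible hi₀ hϖ
  have hex : ∃ k, ∃ i, ¬ ϖ ^ (k + 1) ∣ f i := ⟨j, i₀, fun h => by
    rw [hu, Units.dvd_mul_left, pow_dvd_pow_iff hϖ.ne_zero hϖ.not_isUnit] at h
    omega⟩
  have hall : ∀ i, ϖ ^ Nat.find hex ∣ f i := fun i => by
    rcases h : Nat.find hex with _ | k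
    · simp
    · by_contra hc
      exact Nat.find_min hex (show k < Nat.find hex by omega) ⟨i, hc⟩
  choose f' hf' using hall
  obtain ⟨i, hi⟩ := Nat.find_spec hex
  refine ⟨Nat.find hex, f', hf', i, by_contra fun hn => hi ?_⟩
  have hmem : f' i ∈ IsLocalRing.maximalIdeal R := (IsLocalRing.mem_maximalIdeal _).2 hn
  rw [hϖ.maximalIdeal_eq, Ideal.mem_span_singleton] at hmem
  rw [hf' i, pow_succ]
  exact mul_dvd_mul_left _ hmem

variable {A : ValuationSubring Qb}

/-- The inclusion of the integral constants in `A`. -/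
def baseA (A : ValuationSubring Qb) (L : Subfield Qb) : baseO A L →+* A :=
  Subring.inclusion inf_le_left

theorem isUnit_baseA {L : Subfield Qb} {ϖ : baseO A L} (hC : ConstHyp A L ϖ) :
    ¬ IsUnit (baseA A L ϖ) := fun h => by
  refine hC.irreducible.not_isUnit ?_
  obtain ⟨v, hv⟩ := h.exists_right_inv
  have e : (ϖ : Qb) * (v : Qb) = 1 := congrArg Subtype.val hv
  have hmem : (v : Qb) ∈ L := by
    rw [← inv_eq_of_mul_eq_one_right e]
    exact L.inv_mem ϖ.2.2
  exact isUnit_iff_exists_inv.2 ⟨⟨(v : Qb), v.2, hmem⟩, Subtype.ext e⟩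

variable [Algebra Qb ℂ] {q : ℕ}

theorem baseK_injective : Function.Injective (baseK A q) := fun a b h => by
  have h1 := congrArg Subtype.val h
  exact Subtype.ext ((algebraMap Qb ℂ).injective h1)

theorem serO_injective : Function.Injective (serO A q) := fun a b h =>
  HahnSeries.ext (funext fun i => baseK_injective (congrArg (fun s => HahnSeries.coeff s i) h))

theorem serO_C (c : baseO A (constL A q).toSubfield) :
    serO A q (HahnSeries.C c) = HahnSeries.C (baseK A q c) := by
  rw [serO, HahnSeries.C_apply, coeffMap_single, HahnSeries.C_apply]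

theorem redO_C (c : baseO A (constL A q).toSubfield) :
    redO A q (HahnSeries.C c) = HahnSeries.C (resO A q c) := by
  rw [redO, HahnSeries.C_apply, coeffMap_single, HahnSeries.C_apply]

theorem resO_pi {ϖ : baseO A (constL A q).toSubfield}
    (hC : ConstHyp A (constL A q).toSubfield ϖ) : resO A q ϖ = 0 := by
  show IsLocalRing.residue A _ = 0
  rw [IsLocalRing.residue_eq_zero_iff]
  exact (IsLocalRing.mem_maximalIdeal _).2 (isUnit_baseA hC)

theorem resO_ne_of_isUnit {u : baseO A (constL A q).toSubfield} (hu : IsUnit u) :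
    resO A q u ≠ 0 := (hu.map (resO A q)).ne_zero

/-- A nonzero series is a power of the uniformiser times one with nonzero reduction. -/
theorem exists_series_content {ϖ : baseO A (constL A q).toSubfield}
    (hC : ConstHyp A (constL A q).toSubfield ϖ)
    {a : LaurentSeries (baseO A (constL A q).toSubfield)} (ha : a ≠ 0) :
    ∃ (k : ℕ) (a' : LaurentSeries (baseO A (constL A q).toSubfield)),
      a = HahnSeries.C ϖ ^ k * a' ∧ redO A q a' ≠ 0 := by
  haveI := hC.dvr
  have hne : ∃ i, a.coeff i ≠ 0 := by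
    by_contra h
    push Not at h
    exact ha (HahnSeries.ext (funext h))
  obtain ⟨k, f', hf', i, hi⟩ := exists_content hC.irreducible a.coeff hne
  let a' : LaurentSeries (baseO A (constL A q).toSubfield) :=
    { coeff := f'
      isPWO_support' := a.isPWO_support.mono fun j hj => by
        rw [HahnSeries.mem_support, hf' j]
        exact mul_ne_zero (pow_ne_zero _ hC.irreducible.ne_zero) hj }
  refine ⟨k, a', ?_, fun h => resO_ne_of_isUnit hi ?_⟩
  · ext j
    rw [← map_pow, HahnSeries.C_mul_eq_smul, HahnSeries.coeff_smul, smul_eq_mul]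
    exact congrArg Subtype.val (hf' j)
  · have h1 := congrArg (fun s : LaurentSeries _ => s.coeff i) h
    simpa [redO, a'] using h1

variable (A q) {N : ℕ} [NeZero N]

theorem toK_surjective : Function.Surjective (toK A q) := by
  rintro ⟨c, x, hx, rfl⟩
  exact ⟨⟨x, hx⟩, rfl⟩

variable {A q}

/-- Every constant is a fraction of integral ones. -/
theorem exists_base_fraction (c : constK A q) :
    ∃ a b : baseO A (constL A q).toSubfield, b ≠ 0 ∧ c * baseK A q b = baseK A q a := by
  obtain ⟨x, rfl⟩ := toK_surjective A q c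
  rcases A.mem_or_inv_mem (x : Qb) with h | h
  · refine ⟨⟨x, h, x.2⟩, 1, one_ne_zero, ?_⟩
    rw [map_one, mul_one]
    rfl
  · rcases eq_or_ne x 0 with rfl | hx
    · exact ⟨0, 1, one_ne_zero, by rw [map_zero, zero_mul, map_zero]⟩
    have hx' : (x : Qb) ≠ 0 := fun e => hx (Subtype.ext e)
    refine ⟨1, ⟨(x : Qb)⁻¹, h, (constL A q).toSubfield.inv_mem x.2⟩,
      fun e => inv_ne_zero hx' (congrArg Subtype.val e), ?_⟩
    rw [map_one]
    refine Subtype.ext ?_
    show algebraMap Qb ℂ (x : Qb) * algebraMap Qb ℂ ((x : Qb)⁻¹) = 1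
    rw [← map_mul, mul_inv_cancel₀ hx', map_one]

variable (N)

theorem cF_injective : Function.Injective (cF A q N) := fun a b h =>
  baseK_injective ((rC (N := N) (K := constK A q)).injective (toFl_injective h))

theorem ser_cF (c : baseO A (constL A q).toSubfield) :
    ser (cF A q N c) = HahnSeries.C (baseK A q c) := by
  show ser ⟨rMer N (constK A q) (rC (baseK A q c)), rMer_mem _⟩ = _
  rw [ser_rMer, rSer_rC]

theorem flAct_cF (g : SL(2, ℤ)) (c : baseO A (constL A q).toSubfield) :
    flAct g (cF A q N c) = cF A q N c := by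
  refine Subtype.ext ?_
  show merSL g (rMer N (constK A q) (rC (baseK A q c))) = rMer N (constK A q) (rC (baseK A q c))
  rw [rMer_rC, merSL, merComp_merC]

variable {N}

/-- The rational functions of the coordinate are fractions of integral polynomials. -/
theorem exists_poly_fraction {z x : flN N (constK A q)}
    (hx : x ∈ Subfield.closure (Set.range ((toFl (N := N)).comp rC) ∪ {z})) :
    ∃ P Q : (baseO A (constL A q).toSubfield)[X], Q.eval₂ (cF A q N) z ≠ 0 ∧
      x * Q.eval₂ (cF A q N) z = P.eval₂ (cF A q N) z := by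
  let s : Set (flN N (constK A q)) := Set.range (cF A q N) ∪ {z}
  have hle : Subfield.closure (Set.range ((toFl (N := N)).comp rC) ∪ {z}) ≤ Subfield.closure s := by
    rw [Subfield.closure_le]
    rintro _ (⟨c, rfl⟩ | rfl)
    · obtain ⟨a, b, hb, e⟩ := exists_base_fraction c
      have e' := congrArg ((toFl (N := N)).comp rC) e
      rw [map_mul] at e'
      have hb' : ((toFl (N := N)).comp rC) (baseK A q b) ≠ 0 :=
        (map_ne_zero_iff _ (cF_injective N)).2 hb
      rw [SetLike.mem_coe, eq_div_of_mul_eq hb' e']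
      exact div_mem (Subfield.subset_closure (Or.inl ⟨a, rfl⟩))
        (Subfield.subset_closure (Or.inl ⟨b, rfl⟩))
    · exact Subfield.subset_closure (Or.inr rfl)
  have hring : Subring.closure s ≤ (eval₂RingHom (cF A q N) z).range := by
    rw [Subring.closure_le]
    rintro _ (⟨a, rfl⟩ | rfl)
    · exact ⟨Polynomial.C a, by simp⟩
    · exact ⟨Polynomial.X, by simp⟩
  obtain ⟨y, hy, w, hw, e⟩ := Subfield.mem_closure_iff.1 (hle hx)
  obtain ⟨P, hP⟩ := hring hy
  obtain ⟨Q, hQ⟩ := hring hw
  rw [coe_eval₂RingHom] at hP hQ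
  rcases eq_or_ne w 0 with hw0 | hw0
  · exact ⟨0, 1, by simp, by rw [← e, hw0, div_zero, zero_mul, eval₂_zero]⟩
  · exact ⟨P, Q, by rwa [hQ], by rw [hP, hQ, ← e, div_mul_cancel₀ _ hw0]⟩

end FA.Carayol

end
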