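import Fermat.Agent.Carayol.Vert.Abstract
import Fermat.Agent.Carayol.Vert.Content

/-!
# The Gauss valuation of the expansion at infinity
-/

set_option autoImplicit false
set_option linter.unusedSectionVars false
set_option linter.style.haveILetI false

noncomputable section

namespace FA.Carayol

open CongruenceSubgroup HahnSeries ModularCurve FA.Level Polynomial
open scoped MatrixGroups

local notation "Qb" => AlgebraicClosure ℚ

variable [Algebra Qb ℂ] (A : ValuationSubring Qb) (q : ℕ) (N : ℕ) [NeZero N]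

/-- The quotients of integral series with nonzero reduction of the denominator. -/
def inftyRing : Subring (flN N (constK A q)) where
  carrier := {x | ∃ a b, redO A q b ≠ 0 ∧ ser x * serO A q b = serO A q a}
  one_mem' := ⟨1, 1, by simp, by simp⟩
  zero_mem' := ⟨0, 1, by simp, by simp⟩
  add_mem' := by
    rintro x y ⟨a, b, hb, h⟩ ⟨c, d, hd, h'⟩
    refine ⟨a * d + c * b, b * d, by rw [map_mul]; exact mul_ne_zero hb hd, ?_⟩
    simp only [map_add, map_mul, ← h, ← h']
    ring
  mul_mem' := by
    rintro x y ⟨a, b, hb, h⟩ ⟨c, d, hd, h'⟩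
    refine ⟨a * c, b * d, by rw [map_mul]; exact mul_ne_zero hb hd, ?_⟩
    simp only [map_mul, ← h, ← h']
    ring
  neg_mem' := by
    rintro x ⟨a, b, hb, h⟩
    exact ⟨-a, b, hb, by rw [map_neg, map_neg]; linear_combination -h⟩

variable {A q N} {ℓ : ℕ} {z : flN N (constK A q)} {ϖ : baseO A (constL A q).toSubfield}
  (hz : Coord A q ℓ z) (hC : ConstHyp A (constL A q).toSubfield ϖ)

include hC

theorem cF_pi_ne_zero : cF A q N ϖ ≠ 0 :=
  (map_ne_zero_iff _ (cF_injective N)).2 hC.irreducible.ne_zero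

include hz

/-- A nonzero function is a power of the uniformiser times a unit. -/
theorem exists_unit_part {x : flN N (constK A q)} (hx : x ≠ 0) :
    ∃ j : ℤ, ∃ a b, redO A q a ≠ 0 ∧ redO A q b ≠ 0 ∧
      ser (x / cF A q N ϖ ^ j) * serO A q b = serO A q a := by
  obtain ⟨a, b, hb, h⟩ := hz.bdd x
  have ha : a ≠ 0 := fun e => by
    rw [e, map_zero, mul_eq_zero] at h
    exact h.elim ((map_ne_zero_iff _ ser_injective).2 hx)
      ((map_ne_zero_iff _ serO_injective).2 hb)
  obtain ⟨i, a', rfl, ha'⟩ := exists_series_content hC ha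
  obtain ⟨k, b', rfl, hb'⟩ := exists_series_content hC hb
  refine ⟨(i : ℤ) - k, a', b', ha', hb', ?_⟩
  have hp : ser (cF A q N ϖ) ≠ 0 := (map_ne_zero_iff _ ser_injective).2 (cF_pi_ne_zero hC)
  rw [map_mul, map_mul, map_pow, map_pow, serO_C, ← ser_cF N] at h
  rw [map_div₀, map_zpow₀, zpow_sub₀ hp, zpow_natCast, zpow_natCast]
  field_simp
  linear_combination h

theorem inftyRing_mem_or_inv (x : flN N (constK A q)) :
    x ∈ inftyRing A q N ∨ x⁻¹ ∈ inftyRing A q N := by
  rcases eq_or_ne x 0 with rfl | hx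
  · exact Or.inl (zero_mem _)
  obtain ⟨j, a, b, ha, hb, h⟩ := exists_unit_part hz hC hx
  have hp : cF A q N ϖ ∈ inftyRing A q N :=
    ⟨HahnSeries.C ϖ, 1, by simp, by rw [map_one, mul_one, serO_C, ser_cF]⟩
  have hp0 := cF_pi_ne_zero (N := N) hC
  have hu : x / cF A q N ϖ ^ j ∈ inftyRing A q N := ⟨a, b, hb, h⟩
  have hu' : (x / cF A q N ϖ ^ j)⁻¹ ∈ inftyRing A q N :=
    ⟨b, a, ha, by
      rw [map_inv₀, ← h, inv_mul_cancel_left₀]
      exact (map_ne_zero_iff _ ser_injective).2 (div_ne_zero hx (zpow_ne_zero _ hp0))⟩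
  obtain ⟨n, rfl | rfl⟩ := Int.eq_nat_or_neg j
  · left
    rw [zpow_natCast] at hu
    have := mul_mem hu (pow_mem hp n)
    rwa [div_mul_cancel₀ _ (pow_ne_zero n hp0)] at this
  · right
    rw [zpow_neg, zpow_natCast] at hu'
    have := mul_mem hu' (pow_mem hp n)
    rwa [div_inv_eq_mul, mul_inv, inv_mul_cancel_right₀ (pow_ne_zero n hp0)] at this

/-- The ring at infinity. -/
def inftyVal : ValuationSubring (flN N (constK A q)) :=
  { inftyRing A q N with mem_or_inv_mem' := inftyRing_mem_or_inv hz hC }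

theorem mem_inftyVal {x : flN N (constK A q)} : x ∈ inftyVal hz hC ↔
    ∃ a b, redO A q b ≠ 0 ∧ ser x * serO A q b = serO A q a := Iff.rfl

theorem inftyVal_lt_iff {x : flN N (constK A q)}
    {a b : LaurentSeries (baseO A (constL A q).toSubfield)} (hb : redO A q b ≠ 0)
    (h : ser x * serO A q b = serO A q a) :
    (inftyVal hz hC).valuation x < 1 ↔ redO A q a = 0 := by
  have hb0 : b ≠ 0 := fun e => hb (by rw [e, map_zero])
  rw [val_lt_one_iff_inv]
  constructor
  · rintro (rfl | hx)
    · rw [map_zero, zero_mul, eq_comm, map_eq_zero_iff _ serO_injective] at h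
      rw [h, map_zero]
    · by_contra ha
      refine hx ⟨b, a, ha, ?_⟩
      rw [map_inv₀, ← h, inv_mul_cancel_left₀]
      intro e
      rw [e, zero_mul, eq_comm, map_eq_zero_iff _ serO_injective] at h
      exact ha (by rw [h, map_zero])
  · intro ha
    rcases eq_or_ne x 0 with hx | hx
    · exact Or.inl hx
    refine Or.inr fun hinv => ?_
    obtain ⟨c, d, hd, h'⟩ := (mem_inftyVal hz hC).1 hinv
    rw [map_inv₀] at h'
    have e : serO A q (a * c) = serO A q (b * d) := by
      rw [map_mul, map_mul, ← h, ← h']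
      field_simp [(map_ne_zero_iff _ ser_injective).2 hx]
    have e' := congrArg (redO A q) (serO_injective e)
    rw [map_mul, map_mul, ha, zero_mul] at e'
    exact mul_ne_zero hb hd e'.symm

theorem inftyVal_eq_one {x : flN N (constK A q)}
    {a b : LaurentSeries (baseO A (constL A q).toSubfield)} (ha : redO A q a ≠ 0)
    (hb : redO A q b ≠ 0) (h : ser x * serO A q b = serO A q a) :
    (inftyVal hz hC).valuation x = 1 :=
  le_antisymm (((inftyVal hz hC).valuation_le_one_iff x).2 ⟨a, b, hb, h⟩)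
    (not_lt.1 fun hlt => ha ((inftyVal_lt_iff hz hC hb h).1 hlt))

/-- **The Gauss valuation at infinity.** -/
theorem isInfty_inftyVal : IsInfty A q ϖ (inftyVal hz hC) where
  mem_iff _ := Iff.rfl
  lt_iff _ _ _ hb h := inftyVal_lt_iff hz hC hb h
  scale x hx := by
    obtain ⟨j, a, b, ha, hb, h⟩ := exists_unit_part hz hC hx
    exact ⟨j, inftyVal_eq_one hz hC ha hb h⟩

/-- Polynomials with a unit coefficient are units at infinity. -/
theorem isVertF_inftyVal : IsVertF A q ϖ z (inftyVal hz hC) := by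
  refine ⟨(inftyVal_lt_iff hz hC (a := HahnSeries.C ϖ) (b := 1) (by simp)
    (by rw [map_one, mul_one, serO_C, ser_cF])).2 (by rw [redO_C, resO_pi hC, map_zero]),
    fun P hP => ?_⟩
  obtain ⟨a, b, hb, h, ht⟩ := hz.transc
  obtain ⟨i, hi⟩ := hP
  set n := P.natDegree
  set a' := ∑ j ∈ Finset.range (n + 1), HahnSeries.C (P.coeff j) * a ^ j * b ^ (n - j)
  have hsum : ser (P.eval₂ (cF A q N) z) * serO A q (b ^ n) = serO A q a' := by
    rw [eval₂_eq_sum_range, map_sum, Finset.sum_mul, map_sum]
    refine Finset.sum_congr rfl fun j hj => ?_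
    rw [map_mul, map_mul, map_mul, serO_C, ser_cF, map_pow, map_pow, map_pow, map_pow, ← h,
      mul_pow, mul_assoc, mul_assoc, mul_assoc, ← _root_.pow_add,
      Nat.add_sub_cancel' (Nat.lt_succ_iff.1 (Finset.mem_range.1 hj))]
  refine inftyVal_eq_one hz hC ?_ (by rw [map_pow]; exact pow_ne_zero n hb) hsum
  have he : redO A q a' = redO A q b ^ n *
      (P.map (resO A q)).eval₂ HahnSeries.C (redO A q a / redO A q b) := by
    rw [eval₂_map, eval₂_eq_sum_range, map_sum, Finset.mul_sum]
    refine Finset.sum_congr rfl fun j hj => ?_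
    have hj' : n = j + (n - j) := by have := Finset.mem_range.1 hj; omega
    rw [map_mul, map_mul, redO_C, map_pow, map_pow, RingHom.comp_apply, div_pow]
    conv_rhs => rw [hj', _root_.pow_add]
    field_simp [pow_ne_zero j hb]
  rw [he]
  refine mul_ne_zero (pow_ne_zero n hb) (ht _ fun e => resO_ne_of_isUnit hi ?_)
  have := congrArg (fun p : Polynomial _ => p.coeff i) e
  simpa using this

end FA.Carayol

end
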