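import Fermat.Agent.Carayol.Vert.Degree
import Fermat.Agent.Carayol.Vert.Infty
import Fermat.Agent.Carayol.Field.Fixed

/-!
# The components of the special fibre are the translates of the one at infinity
-/

set_option autoImplicit false
set_option linter.unusedSectionVars false
set_option linter.style.haveILetI false

noncomputable section

namespace FA.Carayol

open CongruenceSubgroup ModularCurve FA.Level Polynomial
open scoped MatrixGroups

local notation "Qb" => AlgebraicClosure ℚ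

variable [Algebra Qb ℂ] {A : ValuationSubring Qb} {q : ℕ} {N : ℕ} [NeZero N] {ℓ : ℕ}
  {z : flN N (constK A q)} {ϖ : baseO A (constL A q).toSubfield}

theorem finite_galLvl : Finite (galLvl (N := N) A q ℓ) := by
  haveI := finite_range_flHom (N := N) (K := constK A q)
  exact Finite.of_injective
    (fun x => (⟨x.1, Subgroup.map_le_range (flHom N (constK A q)) (Gamma ℓ) x.2⟩ :
      (flHom N (constK A q)).range))
    fun a b hab => Subtype.ext (congrArg (fun y : (flHom N (constK A q)).range => y.1) hab)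

theorem galLvl_cF {g : flN N (constK A q) ≃+* flN N (constK A q)} (hg : g ∈ galLvl A q ℓ)
    (c : baseO A (constL A q).toSubfield) : g (cF A q N c) = cF A q N c := by
  obtain ⟨γ, -, rfl⟩ := hg
  exact flAct_cF N γ⁻¹ c

theorem galLvl_eval (hz : Coord A q ℓ z) {g : flN N (constK A q) ≃+* flN N (constK A q)}
    (hg : g ∈ galLvl A q ℓ) (P : (baseO A (constL A q).toSubfield)[X]) :
    g (P.eval₂ (cF A q N) z) = P.eval₂ (cF A q N) z := by
  have hgz : g z = z := by
    obtain ⟨γ, hγ, rfl⟩ := hg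
    exact hz.fix γ⁻¹ (inv_mem hγ)
  rw [eval₂_eq_sum_range, map_sum]
  simp only [map_mul, map_pow, galLvl_cF hg, hgz]

theorem exists_fixed_fraction (hz : Coord A q ℓ z) {x : flN N (constK A q)}
    (hx : ∀ g ∈ galLvl A q ℓ, g x = x) :
    ∃ P Q : (baseO A (constL A q).toSubfield)[X], Q.eval₂ (cF A q N) z ≠ 0 ∧
      x * Q.eval₂ (cF A q N) z = P.eval₂ (cF A q N) z := by
  refine exists_poly_fraction (hz.closed x fun γ hγ => ?_)
  have h := hx _ ⟨γ⁻¹, inv_mem hγ, rfl⟩
  rwa [show flHom N (constK A q) γ⁻¹ x = flAct γ⁻¹⁻¹ x from rfl, inv_inv] at h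

variable (hC : ConstHyp A (constL A q).toSubfield ϖ)
include hC

/-- Polynomials not all zero are a power of the uniformiser times ones with a unit coefficient. -/
theorem exists_poly_content {ι : Type*} (P : ι → (baseO A (constL A q).toSubfield)[X])
    (h : ∃ i, P i ≠ 0) : ∃ (k : ℕ) (P' : ι → (baseO A (constL A q).toSubfield)[X]),
      (∀ i, P i = C (ϖ ^ k) * P' i) ∧ ∃ i j, IsUnit ((P' i).coeff j) := by
  haveI := hC.dvr
  obtain ⟨i, hi⟩ := h
  have hne : ∃ p : ι × ℕ, (P p.1).coeff p.2 ≠ 0 :=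
    ⟨(i, (P i).natDegree), mt leadingCoeff_eq_zero.1 hi⟩
  obtain ⟨k, f, hf, ⟨i', j⟩, hu⟩ := exists_content hC.irreducible
    (fun p : ι × ℕ => (P p.1).coeff p.2) hne
  choose P' hP' using fun i => (C_dvd_iff_dvd_coeff (ϖ ^ k) (P i)).2 fun j => ⟨f (i, j), hf (i, j)⟩
  refine ⟨k, P', hP', i', j, ?_⟩
  have e := hf (i', j)
  simp only at e
  rw [hP' i', coeff_C_mul] at e
  rwa [mul_left_cancel₀ (pow_ne_zero k hC.irreducible.ne_zero) e]

theorem eval_C_pow (k : ℕ) (P : (baseO A (constL A q).toSubfield)[X]) :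
    (C (ϖ ^ k) * P).eval₂ (cF A q N) z = cF A q N ϖ ^ k * P.eval₂ (cF A q N) z := by
  rw [eval₂_mul, eval₂_C, map_pow]

/-- The value of a polynomial in the coordinate. -/
theorem exists_val_poly {P : (baseO A (constL A q).toSubfield)[X]} (hP : P ≠ 0) :
    ∃ k : ℕ, ∀ V, IsVertF A q ϖ z V →
      V.valuation (P.eval₂ (cF A q N) z) = V.valuation (cF A q N ϖ) ^ k := by
  obtain ⟨k, P', hP', ⟨⟩, j, hj⟩ := exists_poly_content hC (fun _ : Unit => P) ⟨(), hP⟩
  refine ⟨k, fun V hV => ?_⟩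
  rw [show P = C (ϖ ^ k) * P' () from hP' (), eval_C_pow hC, map_mul, map_pow,
    hV.2 _ ⟨j, hj⟩, mul_one]

theorem poly_mem {V : ValuationSubring (flN N (constK A q))} (hV : IsVertF A q ϖ z V)
    (P : (baseO A (constL A q).toSubfield)[X]) : P.eval₂ (cF A q N) z ∈ V := by
  rcases eq_or_ne P 0 with rfl | hP
  · rw [eval₂_zero]; exact zero_mem V
  · obtain ⟨k, hk⟩ := exists_val_poly hC (z := z) hP
    rw [← V.valuation_le_one_iff, hk V hV]
    exact pow_le_one₀ zero_le hV.1.le

theorem scaled_inftyVal (hz : Coord A q ℓ z) :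
    Scaled (cF A q N ϖ) (inftyVal hz hC) where
  ne_zero := cF_pi_ne_zero hC
  small := (isVertF_inftyVal hz hC).1
  scale x hx := by
    obtain ⟨j, hj⟩ := (isInfty_inftyVal hz hC).scale x hx
    refine ⟨j, ?_⟩
    rwa [map_div₀, map_zpow₀, div_eq_one_iff_eq (zpow_ne_zero _
      ((Valuation.ne_zero_iff _).2 (cF_pi_ne_zero hC)))] at hj

/-- All components are translates. -/
theorem exists_translate_infty (hz : Coord A q ℓ z)
    {W : ValuationSubring (flN N (constK A q))} (hW : IsVertF A q ϖ z W) :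
    ∃ g ∈ galLvl A q ℓ, (inftyVal hz hC).comap
      ((g : flN N (constK A q) ≃+* flN N (constK A q)) : flN N (constK A q) →+* flN N (constK A q))
      = W := by
  haveI := finite_galLvl (A := A) (q := q) (N := N) (ℓ := ℓ)
  refine exists_translate_eq (scaled_inftyVal hC hz) (fun g hg => galLvl_cF hg ϖ) hW.1
    fun x hfix hx => ?_
  obtain ⟨P, Q, hQ, e⟩ := exists_fixed_fraction hz hfix
  rcases eq_or_ne P 0 with rfl | hP
  · rw [eval₂_zero, mul_eq_zero] at e
    rw [e.resolve_right hQ]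
    exact zero_mem W
  have hQ0 : Q ≠ 0 := fun h => hQ (by rw [h, eval₂_zero])
  obtain ⟨i, hi⟩ := exists_val_poly hC (z := z) hP
  obtain ⟨k, hk⟩ := exists_val_poly hC (z := z) hQ0
  have key : ∀ V, IsVertF A q ϖ z V →
      (V.valuation x ≤ 1 ↔ k ≤ i) := fun V hV => by
    have hp := (zero_lt_iff).2 ((Valuation.ne_zero_iff V.valuation).2 (cF_pi_ne_zero (N := N) hC))
    have h1 := congrArg V.valuation e
    rw [map_mul, hi V hV, hk V hV] at h1
    rw [← mul_le_mul_iff_left₀ (pow_pos hp k), h1, one_mul,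
      pow_le_pow_iff_right_of_lt_one₀ hp hV.1]
  rw [← W.valuation_le_one_iff, key W hW, ← key _ (isVertF_inftyVal hz hC),
    ValuationSubring.valuation_le_one_iff]
  exact hx

/-- The bound on the residues of a component. -/
theorem residues_dependent (hz : Coord A q ℓ z)
    {W : ValuationSubring (flN N (constK A q))} (hW : IsVertF A q ϖ z W)
    (x : Fin (Nat.card (stabVal (galLvl A q ℓ) W) + 1) → flN N (constK A q))
    (hx : ∀ i, x i ∈ W) :
    ∃ P : Fin (Nat.card (stabVal (galLvl A q ℓ) W) + 1) → (baseO A (constL A q).toSubfield)[X],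
      (∃ i j, IsUnit ((P i).coeff j)) ∧
        W.valuation (∑ i, (P i).eval₂ (cF A q N) z * x i) < 1 := by
  classical
  haveI := finite_galLvl (A := A) (q := q) (N := N) (ℓ := ℓ)
  obtain ⟨g, hg, hgW⟩ := exists_translate_infty hC hz hW
  have hS : Scaled (cF A q N ϖ) W := hgW ▸ (scaled_inftyVal hC hz).translate (galLvl_cF hg ϖ)
  obtain ⟨m, u, hcard, hu⟩ := exists_translated_family hS (galLvl A q ℓ)
    (fun g hg => galLvl_cF hg ϖ) (stabVal (galLvl A q ℓ) W) (fun _ => Iff.rfl)
    (Nat.lt_succ_self _) x hx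
  obtain ⟨e, hfix, ⟨p₀, hp₀⟩, hsum⟩ := exists_fixed_relation u hcard
  choose P Q hQ hPQ using fun p => exists_fixed_fraction hz (hfix p)
  set ev := eval₂RingHom (cF A q N) z with hev
  let R : Fin m × Fin (Nat.card (stabVal (galLvl A q ℓ) W) + 1) →
      (baseO A (constL A q).toSubfield)[X] := fun p => P p * ∏ p' ∈ Finset.univ.erase p, Q p'
  have hR : ∀ p, ev (R p) = e p * ∏ p', ev (Q p') := fun p => by
    rw [map_mul, map_prod, ← Finset.mul_prod_erase _ _ (Finset.mem_univ p), ← mul_assoc]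
    simp only [hev, coe_eval₂RingHom, hPQ]
  have hD : ∏ p', ev (Q p') ≠ 0 := Finset.prod_ne_zero_iff.2 fun p _ => hQ p
  obtain ⟨k, R', hR', ⟨a, i⟩, j, hunit⟩ := exists_poly_content hC R
    ⟨p₀, fun h => mul_ne_zero hp₀ hD (by rw [← hR, h, map_zero])⟩
  refine ⟨fun i => R' (a, i), ⟨i, j, hunit⟩, ?_⟩
  refine hu (fun p => ev (R' p)) (fun p g hg => galLvl_eval hz hg _) (fun p => poly_mem hC hW _)
    ?_ a
  have h0 : ∑ p, ev (R p) * u p = 0 := by
    simp only [hR, mul_right_comm _ (∏ p', ev (Q p')), ← Finset.sum_mul, hsum, zero_mul]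
  simp only [hR', hev, coe_eval₂RingHom, eval_C_pow hC, mul_assoc, ← Finset.mul_sum,
    mul_eq_zero] at h0
  exact h0.resolve_left (pow_ne_zero _ (cF_pi_ne_zero hC))

omit hC

/-- **The facts about the components.** -/
theorem vertHolds (A : ValuationSubring Qb) (q N : ℕ) [NeZero N] : VertHolds (N := N) A q := by
  intro ϖ hC ℓ z hz
  refine ⟨inftyVal hz hC, isInfty_inftyVal hz hC, isVertF_inftyVal hz hC, fun W hW => ?_,
    fun W hW x hx => residues_dependent hC hz hW x hx⟩
  obtain ⟨g, hg, rfl⟩ := exists_translate_infty hC hz hW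
  obtain ⟨γ, hγ, rfl⟩ := hg
  exact ⟨γ⁻¹, inv_mem hγ, fun x => Iff.rfl⟩

end FA.Carayol

end
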