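import Mathlib

/-!
# Translates of a discrete valuation ring under a finite group

`Scaled π W`: the values of `W` are the powers of that of `π`. Distinct such rings are separated
by elements; rings agreeing with one on the fixed field are translates of it; the residues at a
translate satisfy a bound in terms of the stabiliser.
-/

set_option autoImplicit false
set_option linter.unusedSectionVars false
set_option linter.style.haveILetI false

noncomputable section

namespace FA.Carayol

open Polynomial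

variable {F : Type*} [Field F]

/-- `π` is small and every value is a power of its value. -/
structure Scaled (π : F) (W : ValuationSubring F) : Prop where
  ne_zero : π ≠ 0
  small : W.valuation π < 1
  scale : ∀ x, x ≠ 0 → ∃ j : ℤ, W.valuation x = W.valuation π ^ j

theorem val_lt_one_iff_inv {W : ValuationSubring F} {x : F} :
    W.valuation x < 1 ↔ x = 0 ∨ x⁻¹ ∉ W := by
  rw [← ValuationSubring.mem_nonunits_iff, ValuationSubring.mem_nonunits_iff_or]

theorem val_comap_lt {W : ValuationSubring F} {g : F →+* F} {x : F} :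
    (W.comap g).valuation x < 1 ↔ W.valuation (g x) < 1 := by
  rw [val_lt_one_iff_inv, val_lt_one_iff_inv, map_eq_zero, ValuationSubring.mem_comap, map_inv₀]

theorem val_comap_eq {W : ValuationSubring F} {g : F →+* F} {x : F} :
    (W.comap g).valuation x = 1 ↔ W.valuation (g x) = 1 := by
  have h : ∀ (V : ValuationSubring F) (y : F),
      V.valuation y = 1 ↔ y ∈ V ∧ ¬ V.valuation y < 1 := fun V y => by
    rw [← V.valuation_le_one_iff, not_lt]
    exact ⟨fun h => ⟨h.le, h.ge⟩, fun h => le_antisymm h.1 h.2⟩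
  rw [h, h, ValuationSubring.mem_comap, val_comap_lt]

theorem val_sum_lt {W : ValuationSubring F} {ι : Type*} {s : Finset ι} {f : ι → F}
    (hf : ∀ i ∈ s, W.valuation (f i) < 1) : W.valuation (∑ i ∈ s, f i) < 1 :=
  W.valuation.map_sum_lt (zero_lt_one' _).ne' hf

namespace Scaled

variable {π : F} {W : ValuationSubring F} (h : Scaled π W)
include h

theorem val_pos : 0 < W.valuation π := zero_lt_iff.2 ((Valuation.ne_zero_iff _).2 h.ne_zero)

/-- High powers of a small element swallow any element. -/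
theorem arch {a : F} (ha : W.valuation a < 1) (b : F) :
    ∃ K, ∀ k, K ≤ k → W.valuation (a ^ k * b) < 1 := by
  rcases eq_or_ne a 0 with rfl | ha0
  · exact ⟨1, fun k hk => by rw [zero_pow (by omega), zero_mul, map_zero]; exact zero_lt_one' _⟩
  rcases eq_or_ne b 0 with rfl | hb0
  · exact ⟨0, fun k _ => by rw [mul_zero, map_zero]; exact zero_lt_one' _⟩
  obtain ⟨i, hi⟩ := h.scale a ha0
  obtain ⟨j, hj⟩ := h.scale b hb0
  have hi1 : 1 ≤ i := by
    by_contra hc
    rw [hi] at ha
    exact ha.not_ge (one_le_zpow_of_nonpos₀ h.val_pos h.small.le (by omega))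
  refine ⟨j.natAbs + 1, fun k hk => ?_⟩
  rw [map_mul, map_pow, hi, hj, ← zpow_natCast, ← _root_.zpow_mul, ← zpow_add₀ h.val_pos.ne']
  refine (zpow_lt_one_iff_right_of_lt_one₀ h.val_pos h.small).2 ?_
  have : (j.natAbs : ℤ) + 1 ≤ k := by exact_mod_cast hk
  nlinarith [neg_abs_le j, Int.natCast_natAbs j, mul_le_mul_of_nonneg_right hi1
    (by omega : (0 : ℤ) ≤ k)]

/-- A larger ring in which `π` is small is equal. -/
theorem eq_of_le {W' : ValuationSubring F} (hle : W ≤ W') (h' : W'.valuation π < 1) : W' = W := by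
  refine le_antisymm (fun x hx => ?_) hle
  by_contra hxW
  have hx0 : x ≠ 0 := fun e => hxW (e ▸ zero_mem W)
  obtain ⟨j, hj⟩ := h.scale x hx0
  have h1 : 1 < W.valuation x := lt_of_not_ge fun e => hxW ((W.valuation_le_one_iff x).1 e)
  have hj0 : j ≤ -1 := by
    by_contra hc
    rw [hj] at h1
    exact h1.not_ge ((zpow_le_one_iff_right_of_lt_one₀ h.val_pos h.small).2 (by omega))
  have hu : W.valuation (x⁻¹ * π ^ j) = 1 := by
    rw [map_mul, map_inv₀, map_zpow₀, ← hj, inv_mul_cancel₀ ((Valuation.ne_zero_iff _).2 hx0)]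
  have hmem : π ^ j ∈ W' := by
    have := mul_mem hx (hle ((W.valuation_le_one_iff _).1 hu.le))
    rwa [mul_inv_cancel_left₀ hx0] at this
  have hle1 := (W'.valuation_le_one_iff _).2 hmem
  rw [map_zpow₀] at hle1
  exact hle1.not_gt (one_lt_zpow_of_neg₀ (zero_lt_iff.2 ((Valuation.ne_zero_iff _).2 h.ne_zero))
    h' (by omega))

theorem eq_of_subset {W' : ValuationSubring F} (h' : Scaled π W') (hle : W ≤ W') : W' = W :=
  h.eq_of_le hle h'.small

end Scaled

/-- Two distinct rings are separated. -/
theorem exists_sep_two {π : F} {W W' : ValuationSubring F} (h : Scaled π W) (h' : Scaled π W')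
    (hne : W' ≠ W) : ∃ x, 1 < W.valuation x ∧ W'.valuation x < 1 := by
  obtain ⟨a, ha', ha⟩ : ∃ a, a ∈ W' ∧ a ∉ W := by
    by_contra hc
    push Not at hc
    exact hne (h'.eq_of_subset h hc).symm
  obtain ⟨b, hb, hb'⟩ : ∃ b, b ∈ W ∧ b ∉ W' := by
    by_contra hc
    push Not at hc
    exact hne (h.eq_of_subset h' hc)
  have hb0 : b ≠ 0 := fun e => hb' (e ▸ zero_mem W')
  have h1 : 1 < W.valuation a := lt_of_not_ge fun e => ha ((W.valuation_le_one_iff a).1 e)
  have h2 : 1 < W'.valuation b := lt_of_not_ge fun e => hb' ((W'.valuation_le_one_iff b).1 e)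
  have h3 := (W.valuation_le_one_iff b).2 hb
  have h4 := (W'.valuation_le_one_iff a).2 ha'
  refine ⟨a / b, ?_, ?_⟩
  · rw [map_div₀, one_lt_div₀ (zero_lt_iff.2 ((Valuation.ne_zero_iff _).2 hb0))]
    exact h3.trans_lt h1
  · rw [map_div₀, div_lt_one₀ (zero_lt_iff.2 ((Valuation.ne_zero_iff _).2 hb0))]
    exact h4.trans_lt h2

/-- An element large at one ring and small at finitely many others. -/
theorem exists_large {π : F} {W : ValuationSubring F} (h : Scaled π W)
    (t : Finset (ValuationSubring F)) (ht : ∀ W' ∈ t, Scaled π W') (hW : ∀ W' ∈ t, W' ≠ W) :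
    ∃ x, 1 < W.valuation x ∧ ∀ W' ∈ t, W'.valuation x < 1 := by
  classical
  induction t using Finset.induction_on with
  | empty =>
    refine ⟨π⁻¹, ?_, by simp⟩
    rw [map_inv₀]
    exact (one_lt_inv₀ h.val_pos).2 h.small
  | @insert V t _ ih =>
    obtain ⟨x, hx, hxt⟩ := ih (fun U hU => ht U (Finset.mem_insert_of_mem hU))
      (fun U hU => hW U (Finset.mem_insert_of_mem hU))
    have hV := ht V (Finset.mem_insert_self V t)
    obtain ⟨b, hb, hbV⟩ := exists_sep_two h hV (hW V (Finset.mem_insert_self V t))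
    rcases lt_trichotomy (V.valuation x) 1 with hc | hc | hc
    · exact ⟨x, hx, fun U hU => (Finset.mem_insert.1 hU).elim (fun e => e ▸ hc) (hxt U)⟩
    · have hK : ∀ U ∈ t, ∃ K, ∀ k, K ≤ k → U.valuation (x ^ k * b) < 1 := fun U hU =>
        (ht U (Finset.mem_insert_of_mem hU)).arch (hxt U hU) b
      choose K hK using hK
      obtain ⟨k, hk⟩ : ∃ k, ∀ U (hU : U ∈ t), K U hU ≤ k :=
        ⟨∑ p ∈ t.attach, K p.1 p.2, fun U hU => Finset.single_le_sum
          (f := fun p : {U // U ∈ t} => K p.1 p.2) (fun _ _ => Nat.zero_le _)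
          (Finset.mem_attach t ⟨U, hU⟩)⟩
      refine ⟨x ^ k * b, ?_, fun U hU => ?_⟩
      · rw [map_mul, map_pow]
        exact one_lt_mul_of_le_of_lt (one_le_pow₀ hx.le) hb
      · rcases Finset.mem_insert.1 hU with rfl | hU'
        · rwa [map_mul, map_pow, hc, one_pow, one_mul]
        · exact hK U hU' k (hk U hU')
    · have hK : ∀ U ∈ t, ∃ K, ∀ k, K ≤ k → U.valuation (x ^ k * b) < 1 := fun U hU =>
        (ht U (Finset.mem_insert_of_mem hU)).arch (hxt U hU) b
      choose K hK using hK
      obtain ⟨k, hk0, hk⟩ : ∃ k, 1 ≤ k ∧ ∀ U (hU : U ∈ t), K U hU ≤ k :=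
        ⟨∑ p ∈ t.attach, K p.1 p.2 + 1, Nat.le_add_left _ _, fun U hU => Nat.le_succ_of_le
          (Finset.single_le_sum (f := fun p : {U // U ∈ t} => K p.1 p.2)
            (fun _ _ => Nat.zero_le _) (Finset.mem_attach t ⟨U, hU⟩))⟩
      refine ⟨x ^ k * b / (1 + x ^ k), ?_, fun U hU => ?_⟩
      · have h1 : 1 < W.valuation (x ^ k) := by
          rw [map_pow]; exact one_lt_pow₀ hx (by omega)
        rw [map_div₀, map_mul, W.valuation.map_add_eq_of_lt_right (by rwa [map_one]),
          mul_div_cancel_left₀ _ (zero_lt_one.trans h1).ne']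
        exact hb
      · rcases Finset.mem_insert.1 hU with rfl | hU'
        · have h1 : 1 < U.valuation (x ^ k) := by
            rw [map_pow]; exact one_lt_pow₀ hc (by omega)
          rw [map_div₀, map_mul, U.valuation.map_add_eq_of_lt_right (by rwa [map_one]),
            mul_div_cancel_left₀ _ (zero_lt_one.trans h1).ne']
          exact hbV
        · have h1 : U.valuation (x ^ k) < 1 := by
            rw [map_pow]; exact pow_lt_one₀ zero_le (hxt U hU') (by omega)
          rw [map_div₀, U.valuation.map_one_add_of_lt h1, div_one]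
          exact hK U hU' k (hk U hU')

/-- An element near `1` at one ring and near `0` at finitely many others. -/
theorem exists_indicatorV {π : F} {W : ValuationSubring F} (h : Scaled π W)
    (s : Finset (ValuationSubring F)) (hs : ∀ W' ∈ s, Scaled π W') :
    ∃ y, W.valuation (y - 1) < 1 ∧ ∀ W' ∈ s, W' ≠ W → W'.valuation y < 1 := by
  classical
  obtain ⟨x, hx, hxs⟩ := exists_large h (s.filter (· ≠ W))
    (fun U hU => hs U (Finset.mem_filter.1 hU).1) (fun U hU => (Finset.mem_filter.1 hU).2)
  have hv : W.valuation (1 + x) = W.valuation x :=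
    W.valuation.map_add_eq_of_lt_right (by rwa [map_one])
  have h10 : 1 + x ≠ 0 := fun e => by
    rw [e, map_zero] at hv
    exact (zero_lt_one.trans hx).ne hv
  refine ⟨x / (1 + x), ?_, fun U hU hne => ?_⟩
  · rw [div_sub_one h10, sub_add_cancel_right, map_div₀, Valuation.map_neg, map_one, hv, one_div]
    exact inv_lt_one_of_one_lt₀ hx
  · have h1 := hxs U (Finset.mem_filter.2 ⟨hU, hne⟩)
    rwa [map_div₀, U.valuation.map_one_add_of_lt h1, div_one]

section group

variable (G : Subgroup (F ≃+* F)) [Finite G]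

/-- The translates of a ring. -/
def translates (W : ValuationSubring F) : Finset (ValuationSubring F) := by
  classical
  haveI := Fintype.ofFinite G
  exact Finset.univ.image fun g : G => W.comap ((g : F ≃+* F) : F →+* F)

variable {G}

theorem mem_translates {W V : ValuationSubring F} :
    V ∈ translates G W ↔ ∃ g ∈ G, W.comap ((g : F ≃+* F) : F →+* F) = V := by
  classical
  simp [translates]

theorem Scaled.translate {π : F} {W : ValuationSubring F} (h : Scaled π W) {g : F ≃+* F}
    (hg : g π = π) : Scaled π (W.comap (g : F →+* F)) where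
  ne_zero := h.ne_zero
  small := val_comap_lt.2 (by show W.valuation (g π) < 1; rw [hg]; exact h.small)
  scale x hx := by
    obtain ⟨j, hj⟩ := h.scale (g x) (fun e => hx ((map_eq_zero_iff _ g.injective).1 e))
    refine ⟨j, ?_⟩
    have hp : W.valuation π ^ j ≠ 0 := zpow_ne_zero _ h.val_pos.ne'
    have e : (W.comap (g : F →+* F)).valuation (x / π ^ j) = 1 := val_comap_eq.2 (by
      show W.valuation (g (x / π ^ j)) = 1
      rw [map_div₀, map_zpow₀, hg, map_div₀, map_zpow₀, hj, div_self hp])
    rwa [map_div₀, map_zpow₀, div_eq_one_iff_eq (zpow_ne_zero _ ((Valuation.ne_zero_iff _).2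
      h.ne_zero))] at e

/-- A ring containing the fixed elements of `W₀` contains what lies in all translates. -/
theorem mem_of_forall_translate {W₀ W : ValuationSubring F}
    (hagree : ∀ x : F, (∀ g ∈ G, g x = x) → x ∈ W₀ → x ∈ W) {x : F}
    (hx : ∀ g ∈ G, g x ∈ W₀) : x ∈ W := by
  classical
  haveI := Fintype.ofFinite G
  set P : F[X] := ∏ g : G, (X - C ((g : F ≃+* F) x)) with hPdef
  have hP : P.Monic := monic_prod_of_monic _ _ fun g _ => monic_X_sub_C _
  have hroot : P.eval x = 0 := by
    rw [hPdef, eval_prod]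
    exact Finset.prod_eq_zero (Finset.mem_univ (1 : G)) (by simp)
  have hfix : ∀ i, ∀ h ∈ G, h (P.coeff i) = P.coeff i := fun i h hh => by
    have : P.map (h : F →+* F) = P := by
      rw [hPdef, Polynomial.map_prod]
      refine Fintype.prod_equiv (Equiv.mulLeft (⟨h, hh⟩ : G)) _ _ fun g => ?_
      simp
    conv_rhs => rw [← this, coeff_map]
    rfl
  have hint : ∀ i, P.coeff i ∈ W₀ := fun i => by
    have : P = (∏ g : G, (X - C (⟨(g : F ≃+* F) x, hx g g.2⟩ : W₀))).map W₀.subtype := by
      rw [hPdef, Polynomial.map_prod]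
      simp
    rw [this, coeff_map]
    exact SetLike.coe_mem _
  by_contra hxW
  have h1 : 1 < W.valuation x := lt_of_not_ge fun e => hxW ((W.valuation_le_one_iff x).1 e)
  have hx0 : x ≠ 0 := fun e => hxW (e ▸ zero_mem W)
  rw [eval_eq_sum_range, Finset.sum_range_succ, hP.coeff_natDegree, one_mul] at hroot
  have h2 : W.valuation (x ^ P.natDegree) = W.valuation (∑ i ∈ Finset.range P.natDegree,
      P.coeff i * x ^ i) := by
    rw [eq_neg_of_add_eq_zero_right hroot, Valuation.map_neg]
  refine h2.not_gt (W.valuation.map_sum_lt ((Valuation.ne_zero_iff _).2 (pow_ne_zero _ hx0))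
    fun i hi => ?_)
  rw [map_mul]
  refine (mul_le_of_le_one_left zero_le
    ((W.valuation_le_one_iff _).2 (hagree _ (hfix i) (hint i)))).trans_lt ?_
  rw [map_pow, map_pow]
  exact pow_lt_pow_right₀ h1 (Finset.mem_range.1 hi)

/-- **Rings agreeing with `W₀` on the fixed field are translates of it.** -/
theorem exists_translate_eq {π : F} {W₀ W : ValuationSubring F} (h₀ : Scaled π W₀)
    (hπ : ∀ g ∈ G, g π = π) (hW : W.valuation π < 1)
    (hagree : ∀ x : F, (∀ g ∈ G, g x = x) → x ∈ W₀ → x ∈ W) :
    ∃ g ∈ G, W₀.comap ((g : F ≃+* F) : F →+* F) = W := by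
  classical
  set s := translates G W₀
  have hs : ∀ V ∈ s, Scaled π V := fun V hV => by
    obtain ⟨g, hg, rfl⟩ := mem_translates.1 hV
    exact h₀.translate (hπ g hg)
  have hR : ∀ x, (∀ V ∈ s, x ∈ V) → x ∈ W := fun x hx =>
    mem_of_forall_translate hagree fun g hg => hx _ (mem_translates.2 ⟨g, hg, rfl⟩)
  choose y hy1 hy0 using fun V : {V // V ∈ s} => exists_indicatorV (hs V.1 V.2) s hs
  have hyV : ∀ V, ∀ U ∈ s, U.valuation (y V) ≤ 1 := fun V U hU => by
    rcases eq_or_ne U V.1 with rfl | hne
    · rw [← sub_add_cancel (y V) 1]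
      exact (Valuation.map_add _ _ _).trans (max_le (hy1 V).le (by rw [map_one]))
    · exact (hy0 V U hU hne).le
  set S := ∑ V : {V // V ∈ s}, y V with hS
  have hS1 : ∀ U ∈ s, U.valuation S = 1 := fun U hU => by
    have : U.valuation (S - 1) < 1 := by
      rw [hS, ← Finset.add_sum_erase _ _ (Finset.mem_univ (⟨U, hU⟩ : {V // V ∈ s})),
        add_sub_right_comm]
      exact U.valuation.map_add_lt (hy1 ⟨U, hU⟩) (val_sum_lt fun V hV =>
        hy0 V U hU fun e => (Finset.mem_erase.1 hV).1 (Subtype.ext e.symm))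
    rw [← sub_add_cancel S 1, U.valuation.map_add_eq_of_lt_right (by rwa [map_one]), map_one]
  obtain ⟨V, hV⟩ : ∃ V, W.valuation (y V) = 1 := by
    by_contra hc
    push Not at hc
    have hle : ∀ V, W.valuation (y V) < 1 := fun V => lt_of_le_of_ne
      ((W.valuation_le_one_iff _).2 (hR _ fun U hU => (U.valuation_le_one_iff _).1 (hyV V U hU)))
      (hc V)
    have h1 : S⁻¹ ∈ W := hR _ fun U hU => (U.valuation_le_one_iff _).1 (by
      rw [map_inv₀, hS1 U hU, inv_one])
    have h2 : W.valuation S < 1 := val_sum_lt fun V _ => hle V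
    rcases val_lt_one_iff_inv.1 h2 with h | h
    · obtain ⟨U, hU⟩ : ∃ U, U ∈ s := ⟨_, mem_translates.2 ⟨1, one_mem G, rfl⟩⟩
      have := hS1 U hU
      rw [h, map_zero] at this
      exact zero_ne_one this
    · exact h h1
  obtain ⟨g, hg, hgV⟩ := mem_translates.1 V.2
  refine ⟨g, hg, hgV.trans ((hs V.1 V.2).eq_of_le (fun x hx => ?_) hW).symm⟩
  have hK : ∀ U ∈ s, U ≠ V.1 → ∃ K, ∀ k, K ≤ k → U.valuation (y V ^ k * x) < 1 :=
    fun U hU hne => (hs U hU).arch (hy0 V U hU hne) x
  choose K hK using hK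
  obtain ⟨k, hk⟩ : ∃ k, ∀ U (hU : U ∈ s) (hne : U ≠ V.1), K U hU hne ≤ k :=
    ⟨∑ U : {U // U ∈ s}, if hne : U.1 = V.1 then 0 else K U.1 U.2 hne, fun U hU hne => by
      refine le_trans ?_ (Finset.single_le_sum (fun _ _ => Nat.zero_le _)
        (Finset.mem_univ (⟨U, hU⟩ : {U // U ∈ s})))
      rw [dif_neg hne]⟩
  have hmem : y V ^ k * x ∈ W := hR _ fun U hU => by
    by_cases hne : U = V.1
    · subst hne
      exact mul_mem (pow_mem ((V.1.valuation_le_one_iff _).1 (hyV V _ V.2)) k) hx
    · exact (U.valuation_le_one_iff _).1 (hK U hU hne k (hk U hU hne)).le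
  rw [← W.valuation_le_one_iff] at hmem ⊢
  rwa [map_mul, map_pow, hV, one_pow, one_mul] at hmem

/-- More elements than the order of the group are dependent over the fixed elements. -/
theorem exists_fixed_relation {ι : Type*} [Fintype ι] (u : ι → F)
    (h : Nat.card G < Fintype.card ι) :
    ∃ e : ι → F, (∀ i, ∀ g ∈ G, g (e i) = e i) ∧ (∃ i, e i ≠ 0) ∧ ∑ i, e i * u i = 0 := by
  classical
  haveI := Fintype.ofFinite G
  have hli : ¬ LinearIndependent (FixedPoints.subfield G F) u := fun hli => by
    have h1 := hli.fintype_card_le_finrank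
    have h2 := FixedPoints.finrank_le_card G F
    rw [Nat.card_eq_fintype_card] at h
    omega
  rw [Fintype.not_linearIndependent_iff] at hli
  obtain ⟨c, hc, i, hi⟩ := hli
  refine ⟨fun j => (c j : F), fun j g hg => (c j).2 ⟨g, hg⟩, ⟨i, fun e => hi (Subtype.ext e)⟩, ?_⟩
  exact Eq.trans (Finset.sum_congr rfl fun j _ => (Subfield.smul_def (c j) (u j)).symm) hc

end group

end FA.Carayol

end
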