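import Fermat.Agent.Carayol.Vert.Abstract

/-!
# Residues at a translate and the stabiliser

More elements of `W` than the order of the stabiliser give more elements of the field than the
order of the group; a relation among those gives, component by component, small combinations.
-/

set_option autoImplicit false
set_option linter.unusedSectionVars false
set_option linter.style.haveILetI false

noncomputable section

namespace FA.Carayol

variable {F : Type*} [Field F]

/-- **The bound on residues by the stabiliser.** -/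
theorem exists_translated_family {π : F} {W : ValuationSubring F} (hW : Scaled π W)
    (G : Subgroup (F ≃+* F)) [Finite G] (hπ : ∀ g ∈ G, g π = π) (H : Subgroup (F ≃+* F))
    (hH : ∀ g, g ∈ H ↔ g ∈ G ∧ ∀ x, g x ∈ W ↔ x ∈ W) {n : ℕ} (hn : Nat.card H < n)
    (x : Fin n → F) (hx : ∀ i, x i ∈ W) :
    ∃ (m : ℕ) (u : Fin m × Fin n → F), Nat.card G < Fintype.card (Fin m × Fin n) ∧
      ∀ c : Fin m × Fin n → F, (∀ p, ∀ g ∈ G, g (c p) = c p) → (∀ p, c p ∈ W) →
        ∑ p, c p * u p = 0 → ∀ a, W.valuation (∑ i, c (a, i) * x i) < 1 := by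
  classical
  set s := translates G W
  have hs : ∀ V ∈ s, Scaled π V := fun V hV => by
    obtain ⟨g, hg, rfl⟩ := mem_translates.1 hV
    exact hW.translate (hπ g hg)
  obtain ⟨y, hy1, hy0⟩ := exists_indicatorV hW s hs
  have hyW : y ∈ W := by
    rw [← W.valuation_le_one_iff, ← sub_add_cancel y 1]
    exact (Valuation.map_add _ _ _).trans (max_le hy1.le (by rw [map_one]))
  have hK : ∀ (V : {V // V ∈ s}) (i : Fin n), V.1 ≠ W →
      ∃ K, ∀ k, K ≤ k → V.1.valuation (y ^ k * x i) < 1 :=
    fun V i hne => (hs V.1 V.2).arch (hy0 V.1 V.2 hne) (x i)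
  choose K hK using hK
  obtain ⟨k, hk⟩ : ∃ k, ∀ V i hne, K V i hne ≤ k :=
    ⟨∑ p : {V // V ∈ s} × Fin n, if hne : p.1.1 = W then 0 else K p.1 p.2 hne, fun V i hne => by
      refine le_trans ?_ (Finset.single_le_sum (fun _ _ => Nat.zero_le _)
        (Finset.mem_univ (V, i)))
      rw [dif_neg hne]⟩
  set xt : Fin n → F := fun i => y ^ k * x i
  have hxt : ∀ i, W.valuation (xt i - x i) < 1 := fun i => by
    have h1 : W.valuation (y ^ k - 1) < 1 := by
      rw [← geom_sum_mul, map_mul]
      exact (mul_le_of_le_one_left zero_le ((W.valuation_le_one_iff _).2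
        (sum_mem fun j _ => pow_mem hyW j))).trans_lt hy1
    rw [show xt i - x i = (y ^ k - 1) * x i by simp only [xt]; ring, map_mul]
    exact (mul_le_of_le_one_right zero_le ((W.valuation_le_one_iff _).2 (hx i))).trans_lt h1
  have hsmall : ∀ g ∈ G, g ∉ H → ∀ i, W.valuation (g (xt i)) < 1 := fun g hg hgH i => by
    set V := W.comap ((g : F ≃+* F) : F →+* F)
    have hne : V ≠ W := fun e => hgH ((hH g).2 ⟨hg, fun z => by
      conv_rhs => rw [← e]
      rfl⟩)
    exact val_comap_lt.1 (hK ⟨V, mem_translates.2 ⟨g, hg, rfl⟩⟩ i hne k (hk _ _ hne))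
  let ι := G ⧸ H.subgroupOf G
  haveI := Fintype.ofFinite ι
  let e := (Fintype.equivFin ι).symm
  let rep : Fin (Fintype.card ι) → G := fun a => (e a).out
  refine ⟨Fintype.card ι, fun p => (rep p.1 : F ≃+* F) (xt p.2), ?_, fun c hfix hmem hsum a => ?_⟩
  · rw [Fintype.card_prod, Fintype.card_fin, Fintype.card_fin, ← Nat.card_eq_fintype_card,
      Subgroup.card_eq_card_quotient_mul_card_subgroup (H.subgroupOf G),
      Nat.card_congr (Subgroup.subgroupOfEquivOfLe fun g hg => ((hH g).1 hg).1).toEquiv]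
    exact Nat.mul_lt_mul_of_pos_left hn Nat.card_pos
  set ga : G := rep a
  have h0 := congrArg ((ga⁻¹ : G) : F ≃+* F) hsum
  rw [map_sum, map_zero, Fintype.sum_prod_type, ← Finset.add_sum_erase _ _ (Finset.mem_univ a)] at h0
  have hother : W.valuation (∑ b ∈ Finset.univ.erase a, ∑ i,
      ((ga⁻¹ : G) : F ≃+* F) (c (b, i) * (rep b : F ≃+* F) (xt i))) < 1 := by
    refine val_sum_lt fun b hb => val_sum_lt fun i _ => ?_
    rw [map_mul, hfix _ _ (ga⁻¹).2, map_mul]
    refine (mul_le_of_le_one_left zero_le ((W.valuation_le_one_iff _).2 (hmem _))).trans_lt ?_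
    refine hsmall ((ga⁻¹ * rep b : G) : F ≃+* F) (ga⁻¹ * rep b).2 (fun hmemH => ?_) i
    refine (Finset.mem_erase.1 hb).1 (e.injective ?_).symm
    rw [← QuotientGroup.out_eq' (e a), ← QuotientGroup.out_eq' (e b)]
    exact QuotientGroup.eq.2 (Subgroup.mem_subgroupOf.2 hmemH)
  have hmain : W.valuation (∑ i, c (a, i) * xt i) < 1 := by
    rw [eq_neg_of_add_eq_zero_left h0 |> fun e => show ∑ i, c (a, i) * xt i = _ from Eq.trans
      (Finset.sum_congr rfl fun i _ => by
        rw [map_mul, hfix _ _ (ga⁻¹).2]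
        exact congrArg _ (RingEquiv.symm_apply_apply _ _).symm) e, Valuation.map_neg]
    exact hother
  have e1 : ∑ i, c (a, i) * x i = ∑ i, c (a, i) * xt i - ∑ i, c (a, i) * (xt i - x i) := by
    simp only [mul_sub, Finset.sum_sub_distrib]
    abel
  rw [e1]
  refine (Valuation.map_sub _ _ _).trans_lt (max_lt hmain (val_sum_lt fun i _ => ?_))
  rw [map_mul]
  exact (mul_le_of_le_one_left zero_le ((W.valuation_le_one_iff _).2 (hmem _))).trans_lt (hxt i)

end FA.Carayol

end
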